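import Fermat.Agent.S55.L.Unram784.Frobenius

/-!
# S55, layer L, leaf L-A2 (helper784): existence of the auxiliary polynomial and of a root
-/

set_option autoImplicit false
set_option linter.unusedSectionVars false

namespace Fermat.Agent.S55.L

open IsLocalRing Polynomial

section Poly

variable {R : Type} [CommRing R] [IsLocalRing R]

/-- Monic lifts of monic polynomials over the residue field. -/
theorem u784_exists_monic_lift (f : (ResidueField R)[X]) (hf : f.Monic) :
    ∃ g : R[X], g.Monic ∧ g.map (residue R) = f ∧ g.natDegree = f.natDegree := by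
  have hmem : f ∈ Polynomial.lifts (residue R) := by
    rw [Polynomial.mem_lifts]
    exact Polynomial.map_surjective _ residue_surjective f
  obtain ⟨g, hg1, hg2, hg3⟩ := Polynomial.lifts_and_natDegree_eq_and_monic hmem hf
  exact ⟨g, hg3, hg1, hg2⟩

/-- Over a finite field there are monic irreducible polynomials of every degree `[l : k]`. -/
theorem u784_exists_irreducible_of_finrank {k l : Type} [Field k] [Field l] [Algebra k l]
    [Finite k] [Finite l] :
    ∃ f : k[X], f.Monic ∧ Irreducible f ∧ f.natDegree = Module.finrank k l := by
  obtain ⟨θ, hθ⟩ := Field.exists_primitive_element k l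
  have hint : IsIntegral k θ := Algebra.IsIntegral.isIntegral θ
  refine ⟨minpoly k θ, minpoly.monic hint, minpoly.irreducible hint, ?_⟩
  rw [← IntermediateField.adjoin.finrank hint, hθ, IntermediateField.finrank_top']

variable {S : Type} [CommRing S] [IsLocalRing S] [Algebra R S] [IsLocalHom (algebraMap R S)]
  [IsAdicComplete (maximalIdeal S) S] [Finite (ResidueField R)] [Finite (ResidueField S)]

/-- The auxiliary polynomial: monic, with irreducible reduction of degree `[l : k]`. -/
theorem u784_exists_poly :
    ∃ g : R[X], g.Monic ∧ Irreducible (g.map (residue R)) ∧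
      g.natDegree = Module.finrank (ResidueField R) (ResidueField S) := by
  obtain ⟨f, hf1, hf2, hf3⟩ :=
    u784_exists_irreducible_of_finrank (k := ResidueField R) (l := ResidueField S)
  obtain ⟨g, hg1, hg2, hg3⟩ := u784_exists_monic_lift f hf1
  exact ⟨g, hg1, hg2 ▸ hf2, hg3.trans hf3⟩

/-- A monic polynomial with irreducible reduction of degree `[l : k]` has a root in `S`. -/
theorem u784_exists_root (g : R[X]) (hg : g.Monic) (hirr : Irreducible (g.map (residue R)))
    (hdeg : g.natDegree = Module.finrank (ResidueField R) (ResidueField S)) :
    ∃ β : S, (g.map (algebraMap R S)).IsRoot β := by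
  have hdeg' : (g.map (residue R)).natDegree =
      Module.finrank (ResidueField R) (ResidueField S) := by
    rw [hg.natDegree_map, hdeg]
  have hsp := u784_splits_of_natDegree_eq (S := S) (g.map (residue R)) hirr hdeg'
  have hsep : (g.map (residue R)).Separable := PerfectField.separable_of_irreducible hirr
  have hpos : 0 < Multiset.card ((g.map (residue R)).map
      (algebraMap (ResidueField R) (ResidueField S))).roots := by
    rw [splits_iff_card_roots.mp hsp, (hg.map _).natDegree_map, hdeg']
    exact Module.finrank_pos
  obtain ⟨r, hr⟩ := Multiset.card_pos_iff_exists_mem.mp hpos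
  rw [Polynomial.mem_roots ((hg.map _).map _).ne_zero] at hr
  obtain ⟨β, hβ, -⟩ := u784_exists_lift_root g hg hsep r hr
  exact ⟨β, hβ⟩

end Poly

end Fermat.Agent.S55.L
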