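import Fermat.Agent.S55.L.Unram784.Basic
import Fermat.Agent.S55.L.Unram784.Poly

/-!
# S55, layer L, leaf L-A2 (helper784): from valuation subrings to the AKLB setting

For unramified data `(A, B, π)` (`IsUnramifiedExt`) we build the local algebra structure
`A → B` and verify the hypotheses of the ring-level theory.
-/

set_option autoImplicit false
set_option linter.unusedSectionVars false

namespace Fermat.Agent.S55.L

open IsLocalRing Polynomial

section Inst

variable {K L : Type} [Field K] [Field L] [Algebra K L] (A : ValuationSubring K)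
  (B : ValuationSubring L)

/-- The inclusion `A → B` induced by `K → L`. -/
def u784_incl (hAB : ∀ x : K, x ∈ A → algebraMap K L x ∈ B) : ↥A →+* ↥B where
  toFun x := ⟨algebraMap K L x, hAB x x.2⟩
  map_one' := Subtype.ext (by simp)
  map_mul' x y := Subtype.ext (by simp)
  map_zero' := Subtype.ext (by simp)
  map_add' x y := Subtype.ext (by simp)

@[simp]
theorem u784_incl_coe (hAB : ∀ x : K, x ∈ A → algebraMap K L x ∈ B) (x : A) :
    ((u784_incl A B hAB x : B) : L) = algebraMap K L (x : K) := rfl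

variable {A B}

/-- Master theorem for unramified data `(A, B, π)`. -/
theorem u784_master [CharZero K] (hA : IsLocalRingOfIntegers A) (hB : IsLocalRingOfIntegers B)
    (π : K) (hπA : IsUniformizer A π) (hπB : IsUniformizer B (algebraMap K L π)) :
    FiniteDimensional K L ∧ IsGalois K L ∧
    (∃ g : (↥A)[X], g.Monic ∧ Irreducible (g.map (residue ↥A)) ∧
      g.natDegree = Module.finrank K L) ∧
    (∀ g : (↥A)[X], g.Monic → Irreducible (g.map (residue ↥A)) →
      g.natDegree = Module.finrank K L →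
        ((g.map (algebraMap ↥A K)).map (algebraMap K L)).Splits) ∧
    (∃ φ : L ≃ₐ[K] L, (∀ x ∈ B, φ x - x ^ Nat.card (ResidueField ↥A) ∈ B.nonunits) ∧
      ∀ σ : L ≃ₐ[K] L, σ ∈ Subgroup.zpowers φ) := by
  have hAB : ∀ x : K, x ∈ A → algebraMap K L x ∈ B :=
    fun x hx => u784_algebraMap_mem hA hB π hπA hπB hx
  obtain ⟨hdvrA, hcA, hfA⟩ := id hA
  obtain ⟨hdvrB, hcB, hfB⟩ := id hB
  let _ : Algebra ↥A ↥B := (u784_incl A B hAB).toAlgebra
  have halg : ∀ x : A, ((algebraMap ↥A ↥B x : B) : L) = algebraMap K L (x : K) := fun _ => rfl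
  have : IsScalarTower ↥A ↥B L := IsScalarTower.of_algebraMap_eq (fun x => rfl)
  have : IsLocalHom (algebraMap ↥A ↥B) := by
    refine ⟨fun a ha => ?_⟩
    rw [A.valuation_eq_one_iff]
    rcases A.valuation_lt_one_or_eq_one a with h1 | h1
    · exfalso
      have h2 : algebraMap K L (a : K) ∈ B.nonunits :=
        u784_algebraMap_mem_nonunits hA hB π hπA hπB (A.mem_nonunits_iff.mpr h1)
      have h3 := (B.valuation_eq_one_iff _).mp ha
      rw [halg] at h3
      exact (B.mem_nonunits_iff.mp h2).ne h3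
    · exact h1
  have hunr : (maximalIdeal ↥A).map (algebraMap ↥A ↥B) = maximalIdeal ↥B := by
    obtain ⟨hπ, hirr⟩ := hπA
    obtain ⟨hπ', hirr'⟩ := hπB
    rw [(IsDiscreteValuationRing.irreducible_iff_uniformizer _).mp hirr,
      (IsDiscreteValuationRing.irreducible_iff_uniformizer _).mp hirr', Ideal.map_span,
      Set.image_singleton]
    rfl
  obtain ⟨g₀, hg₀, hirr₀, hdeg₀⟩ := u784_exists_poly (R := ↥A) (S := ↥B)
  obtain ⟨β₀, hβ₀⟩ := u784_exists_root g₀ hg₀ hirr₀ hdeg₀
  have hfin : Module.finrank K L = g₀.natDegree :=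
    u784_finrank_eq hunr g₀ hg₀ hirr₀ hdeg₀ β₀ hβ₀
  refine ⟨u784_finiteDimensional hunr g₀ hg₀ hirr₀ hdeg₀ β₀ hβ₀,
    u784_isGalois hunr g₀ hg₀ hirr₀ hdeg₀ β₀ hβ₀, ⟨g₀, hg₀, hirr₀, hfin.symm⟩, ?_, ?_⟩
  · intro g hg hirr hdeg
    exact u784_splits g hg hirr (hdeg.trans (hfin.trans hdeg₀))
  · obtain ⟨φ, hφ1, hφ2⟩ := u784_exists_frobenius (K := K) (L := L) hunr g₀ hg₀ hirr₀ hdeg₀ β₀ hβ₀
    refine ⟨φ, fun x hx => ?_, hφ2⟩
    obtain ⟨y, hy1, hy2⟩ := hφ1 ⟨x, hx⟩
    replace hy1 : ((y : B) : L) = φ x := hy1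
    rw [ValuationSubring.mem_nonunits_iff_exists_mem_maximalIdeal]
    have hmem : φ x - x ^ Nat.card (ResidueField ↥A) ∈ B := by
      have : φ x - x ^ Nat.card (ResidueField ↥A) =
          ((y - ⟨x, hx⟩ ^ Nat.card (ResidueField ↥A) : B) : L) := by
        rw [← hy1]
        rfl
      rw [this]
      exact Subtype.coe_prop _
    refine ⟨hmem, ?_⟩
    have heq : (⟨φ x - x ^ Nat.card (ResidueField ↥A), hmem⟩ : B) =
        y - ⟨x, hx⟩ ^ Nat.card (ResidueField ↥A) := by
      apply Subtype.ext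
      change φ x - x ^ Nat.card (ResidueField ↥A) = (y : L) - x ^ Nat.card (ResidueField ↥A)
      rw [hy1]
    rw [heq]
    exact hy2

end Inst

end Fermat.Agent.S55.L
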