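import Fermat.Agent.S55.L.Unram784.AdjoinRootDVR
import Fermat.Agent.S55.L.Unram784.Inst

/-!
# S55, layer L, leaf L-A2 (helper784): `UnramifiedExistsSpec`

For a local field `K` with ring of integers `A` and `n > 0`, take `g : A[X]` monic whose
reduction is irreducible of degree `n`, `S = A[X]/(g)` and `L = Frac S`.
-/

set_option autoImplicit false
set_option linter.unusedSectionVars false

namespace Fermat.Agent.S55.L

open IsLocalRing Polynomial

section Transport

variable {S L : Type} [CommRing S] [IsDomain S] [IsDiscreteValuationRing S] [Field L]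
  [Algebra S L] [IsFractionRing S L]

/-- The valuation subring of `L = Frac S` attached to the discrete valuation ring `S`. -/
noncomputable def u784_valSubring (S L : Type) [CommRing S] [IsDomain S]
    [IsDiscreteValuationRing S] [Field L] [Algebra S L] [IsFractionRing S L] :
    ValuationSubring L :=
  (ValuationRing.valuation S L).valuationSubring

theorem u784_mem_valSubring (x : L) :
    x ∈ u784_valSubring S L ↔ ∃ a : S, algebraMap S L a = x :=
  ValuationRing.mem_integer_iff S L x

/-- `S ≃ B`. -/
noncomputable def u784_equivValSubring (S L : Type) [CommRing S] [IsDomain S]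
    [IsDiscreteValuationRing S] [Field L] [Algebra S L] [IsFractionRing S L] :
    S ≃+* ↥(u784_valSubring S L) :=
  RingEquiv.ofBijective
    ((algebraMap S L).codRestrict (u784_valSubring S L).toSubring
      (fun a => (u784_mem_valSubring (algebraMap S L a)).mpr ⟨a, rfl⟩))
    ⟨fun a b h => IsFractionRing.injective S L (congrArg Subtype.val h),
      fun x => by
        obtain ⟨a, ha⟩ := (u784_mem_valSubring (x : L)).mp x.2
        exact ⟨a, Subtype.ext ha⟩⟩

@[simp]
theorem u784_equivValSubring_coe (a : S) :
    ((u784_equivValSubring S L a : u784_valSubring S L) : L) = algebraMap S L a := rfl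

theorem u784_map_maximalIdeal_equiv {S T : Type} [CommRing S] [CommRing T] [IsLocalRing S]
    [IsLocalRing T] (e : S ≃+* T) : (maximalIdeal S).map e = maximalIdeal T :=
  IsLocalRing.eq_maximalIdeal
    ((Ideal.isMaximal_map_iff_of_bijective (f := e) e.bijective).mpr
      (IsLocalRing.maximalIdeal.isMaximal S))

/-- The valuation subring attached to a complete DVR with finite residue field is a ring of
integers. -/
theorem u784_isLocalRingOfIntegers_valSubring [IsAdicComplete (maximalIdeal S) S]
    [Finite (ResidueField S)] : IsLocalRingOfIntegers (u784_valSubring S L) := by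
  let e := u784_equivValSubring S L
  have hpir : IsPrincipalIdealRing ↥(u784_valSubring S L) :=
    IsPrincipalIdealRing.of_surjective e.toRingHom e.surjective
  have hmax : (maximalIdeal S).map e = maximalIdeal ↥(u784_valSubring S L) :=
    u784_map_maximalIdeal_equiv e
  have hdvr : IsDiscreteValuationRing ↥(u784_valSubring S L) := by
    refine IsDiscreteValuationRing.mk ?_
    rw [← hmax]
    intro h
    have h2 : maximalIdeal S = ⊥ := by
      rw [eq_bot_iff]
      intro x hx
      have h3 : e x ∈ (maximalIdeal S).map e := Ideal.mem_map_of_mem _ hx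
      rw [h, Ideal.mem_bot] at h3
      rw [Ideal.mem_bot]
      exact (map_eq_zero_iff e e.injective).mp h3
    exact IsDiscreteValuationRing.not_a_field S h2
  refine ⟨hdvr, ?_, ?_⟩
  · rw [← hmax]
    exact (IsAdicComplete.congr_ringEquiv (maximalIdeal S) e).mpr inferInstance
  · exact Finite.of_equiv _ (ResidueField.mapEquiv e).toEquiv

end Transport

/-- **L-A2a**: existence of the unramified extension of each degree. -/
theorem u784_unramifiedExists : UnramifiedExistsSpec := by
  intro K _ hK n hn
  obtain ⟨A, hA⟩ := hK.exists_ringOfIntegers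
  have := hK.charZero
  obtain ⟨hdvrA, hcA, hfA⟩ := id hA
  -- the polynomial
  obtain ⟨p, hp⟩ := CharP.exists (ResidueField ↥A)
  have : Fact p.Prime := ⟨CharP.char_is_prime (ResidueField ↥A) p⟩
  have : NeZero n := ⟨hn.ne'⟩
  obtain ⟨f, hf1, hf2, hf3⟩ := u784_exists_irreducible_of_finrank (k := ResidueField ↥A)
    (l := FiniteField.Extension (ResidueField ↥A) p n)
  rw [FiniteField.finrank_extension] at hf3
  obtain ⟨g, hg, hgf, hgdeg⟩ := u784_exists_monic_lift f hf1
  have hirr : Irreducible (g.map (residue ↥A)) := hgf ▸ hf2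
  have hgn : g.natDegree = n := hgdeg.trans hf3
  -- the ring `S = A[X]/(g)` and its fraction field
  obtain ⟨hdom, hdvr, hmeq, hcomp, hfin, hcard, hloc⟩ := u784_adjoinRoot_package g hg hirr
  have hinjS : Function.Injective (algebraMap ↥A (AdjoinRoot g)) :=
    AdjoinRoot.of.injective_of_degree_ne_zero (u784_adjoinRoot_degree_ne_zero g hg hirr)
  have hinjA : Function.Injective (algebraMap ↥A (FractionRing (AdjoinRoot g))) := by
    rw [IsScalarTower.algebraMap_eq ↥A (AdjoinRoot g) (FractionRing (AdjoinRoot g))]
    exact (IsFractionRing.injective (AdjoinRoot g) (FractionRing (AdjoinRoot g))).comp hinjS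
  let _ : Algebra K (FractionRing (AdjoinRoot g)) := (IsFractionRing.lift hinjA).toAlgebra
  have hψ : ∀ x : ↥A, algebraMap K (FractionRing (AdjoinRoot g)) (algebraMap ↥A K x) =
      algebraMap ↥A (FractionRing (AdjoinRoot g)) x := fun x =>
    IsFractionRing.lift_algebraMap hinjA x
  have : IsScalarTower ↥A K (FractionRing (AdjoinRoot g)) :=
    IsScalarTower.of_algebraMap_eq (fun x => (hψ x).symm)
  have hdeg : g.natDegree =
      Module.finrank (ResidueField ↥A) (ResidueField (AdjoinRoot g)) := by
    have h1 := Module.natCard_eq_pow_finrank (K := ResidueField ↥A)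
      (V := ResidueField (AdjoinRoot g))
    rw [hcard] at h1
    exact Nat.pow_right_injective (u784_two_le_card_residue (R := ↥A)) h1
  have hroot : (g.map (algebraMap ↥A (AdjoinRoot g))).IsRoot (AdjoinRoot.root g) := by
    rw [IsRoot.def, Polynomial.eval_map]
    exact AdjoinRoot.eval₂_root g
  have hfinrank : Module.finrank K (FractionRing (AdjoinRoot g)) = n :=
    (u784_finrank_eq hmeq g hg hirr hdeg _ hroot).trans hgn
  have hfd : FiniteDimensional K (FractionRing (AdjoinRoot g)) :=
    u784_finiteDimensional hmeq g hg hirr hdeg _ hroot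
  -- the valuation subring and the uniformizer
  obtain ⟨ϖ, hϖ⟩ := IsDiscreteValuationRing.exists_irreducible ↥A
  have hϖS : Irreducible (algebraMap ↥A (AdjoinRoot g) ϖ) :=
    u784_irreducible_algebraMap hmeq ϖ hϖ
  have hB := u784_isLocalRingOfIntegers_valSubring (S := AdjoinRoot g)
    (L := FractionRing (AdjoinRoot g))
  refine ⟨FractionRing (AdjoinRoot g), inferInstance, inferInstance, hfd,
    ⟨A, u784_valSubring (AdjoinRoot g) (FractionRing (AdjoinRoot g)), (ϖ : K), hA, hB,
      ⟨ϖ.2, hϖ⟩, ?_⟩, hfinrank⟩
  have hval : algebraMap K (FractionRing (AdjoinRoot g)) (ϖ : K) =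
      algebraMap (AdjoinRoot g) (FractionRing (AdjoinRoot g))
        (algebraMap ↥A (AdjoinRoot g) ϖ) := by
    rw [← IsScalarTower.algebraMap_apply ↥A (AdjoinRoot g) (FractionRing (AdjoinRoot g)),
      ← hψ]
    rfl
  have hmem : algebraMap K (FractionRing (AdjoinRoot g)) (ϖ : K) ∈
      u784_valSubring (AdjoinRoot g) (FractionRing (AdjoinRoot g)) :=
    (u784_mem_valSubring _).mpr ⟨_, hval.symm⟩
  refine ⟨hmem, ?_⟩
  have heq : (⟨algebraMap K (FractionRing (AdjoinRoot g)) (ϖ : K), hmem⟩ :
      u784_valSubring (AdjoinRoot g) (FractionRing (AdjoinRoot g))) =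
      u784_equivValSubring (AdjoinRoot g) (FractionRing (AdjoinRoot g))
        (algebraMap ↥A (AdjoinRoot g) ϖ) := Subtype.ext hval
  rw [heq]
  exact (MulEquiv.irreducible_iff
    (u784_equivValSubring (AdjoinRoot g) (FractionRing (AdjoinRoot g)))).mpr hϖS

end Fermat.Agent.S55.L
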