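import Fermat.Agent.S55.L.Unram784.Nakayama

/-!
# S55, layer L, leaf L-A2 (helper784): `R[X]/(g)` for `g` monic with irreducible reduction

Let `R` be a complete discrete valuation ring with finite residue field `k`, and `g : R[X]` monic
with irreducible reduction.  Then `S = R[X]/(g)` is a complete discrete valuation ring with
maximal ideal `𝔪_R S`, and its residue field is finite of degree `deg g` over `k`.
-/

set_option autoImplicit false
set_option linter.unusedSectionVars false

namespace Fermat.Agent.S55.L

open IsLocalRing Polynomial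

section Transfer

variable {R : Type*} [CommRing R] (I : Ideal R) {M N : Type*} [AddCommGroup M] [Module R M]
  [AddCommGroup N] [Module R N]

theorem u784_mem_smul_top_map (e : M ≃ₗ[R] N) (n : ℕ) (x : M) :
    e x ∈ (I ^ n • ⊤ : Submodule R N) ↔ x ∈ (I ^ n • ⊤ : Submodule R M) := by
  have h : (I ^ n • ⊤ : Submodule R N) = (I ^ n • ⊤ : Submodule R M).map e.toLinearMap := by
    rw [Submodule.map_smul'', Submodule.map_top, LinearMap.range_eq_top.mpr e.surjective]
  rw [h]
  constructor
  · rintro ⟨y, hy, hxy⟩
    have : y = x := e.injective hxy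
    rwa [← this]
  · intro hx
    exact ⟨x, hx, rfl⟩

theorem u784_isPrecomplete_of_linearEquiv (e : M ≃ₗ[R] N) [IsPrecomplete I M] :
    IsPrecomplete I N := by
  refine ⟨fun f hf => ?_⟩
  obtain ⟨L, hL⟩ := IsPrecomplete.prec ‹IsPrecomplete I M› (f := fun n => e.symm (f n)) (by
    intro m n hmn
    have h1 := hf hmn
    rw [SModEq.sub_mem] at h1 ⊢
    rw [← u784_mem_smul_top_map I e, map_sub, e.apply_symm_apply, e.apply_symm_apply]
    exact h1)
  refine ⟨e L, fun n => ?_⟩
  have h1 := hL n
  rw [SModEq.sub_mem] at h1 ⊢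
  rw [← u784_mem_smul_top_map I e, map_sub, e.apply_symm_apply] at h1
  exact h1

end Transfer

section AdjoinRoot

variable {R : Type} [CommRing R] [IsDomain R] [IsDiscreteValuationRing R]
  [IsAdicComplete (maximalIdeal R) R] [Finite (ResidueField R)]
  (g : R[X]) (hg : g.Monic) (hirr : Irreducible (g.map (residue R)))

include hg in
theorem u784_adjoinRoot_isAdicComplete :
    IsAdicComplete ((maximalIdeal R).map (algebraMap R (AdjoinRoot g))) (AdjoinRoot g) := by
  rw [IsAdicComplete.map_algebraMap_iff]
  have hfin : Module.Finite R (AdjoinRoot g) := (AdjoinRoot.powerBasis' hg).finite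
  have hpre : IsPrecomplete (maximalIdeal R) (AdjoinRoot g) := by
    have := u784_isPrecomplete_pi (maximalIdeal R) (R := R)
      (ι := Fin (AdjoinRoot.powerBasis' hg).dim)
    exact u784_isPrecomplete_of_linearEquiv (maximalIdeal R)
      (AdjoinRoot.powerBasis' hg).basis.equivFun.symm
  exact { toIsHausdorff := inferInstance, toIsPrecomplete := hpre }

include hirr in
theorem u784_adjoinRoot_isMaximal :
    ((maximalIdeal R).map (algebraMap R (AdjoinRoot g))).IsMaximal := by
  apply Ideal.Quotient.maximal_of_isField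
  have hmax : (Ideal.span {g.map (residue R)} : Ideal (ResidueField R)[X]).IsMaximal :=
    PrincipalIdealRing.isMaximal_of_irreducible hirr
  have hfield : IsField ((ResidueField R)[X] ⧸
      (Ideal.span {g.map (residue R)} : Ideal (ResidueField R)[X])) :=
    (Ideal.Quotient.maximal_ideal_iff_isField_quotient _).mp hmax
  exact (AdjoinRoot.quotEquivQuotMap g (maximalIdeal R)).toRingEquiv.toMulEquiv.isField hfield

include hg hirr in
theorem u784_adjoinRoot_isDomain : IsDomain (AdjoinRoot g) := by
  have h1 : Irreducible g := Monic.irreducible_of_irreducible_map (residue R) g hg hirr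
  exact AdjoinRoot.isDomain_of_prime h1.prime

include hg hirr in
theorem u784_adjoinRoot_degree_ne_zero : g.degree ≠ 0 := by
  have h1 : 0 < (g.map (residue R)).degree := Polynomial.degree_pos_of_irreducible hirr
  rw [hg.degree_map] at h1
  exact h1.ne'

include hg hirr in
/-- `R[X]/(g)` is a complete discrete valuation ring, unramified over `R`, with finite residue
field of cardinality `|k| ^ deg g`. -/
theorem u784_adjoinRoot_package :
    ∃ (_ : IsDomain (AdjoinRoot g)) (_ : IsDiscreteValuationRing (AdjoinRoot g)),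
      (maximalIdeal R).map (algebraMap R (AdjoinRoot g)) = maximalIdeal (AdjoinRoot g) ∧
      IsAdicComplete (maximalIdeal (AdjoinRoot g)) (AdjoinRoot g) ∧
      Finite (ResidueField (AdjoinRoot g)) ∧
      Nat.card (ResidueField (AdjoinRoot g)) = Nat.card (ResidueField R) ^ g.natDegree ∧
      IsLocalHom (algebraMap R (AdjoinRoot g)) := by
  have hdom : IsDomain (AdjoinRoot g) := u784_adjoinRoot_isDomain g hg hirr
  have hmaxI := u784_adjoinRoot_isMaximal g hirr
  have hcomp := u784_adjoinRoot_isAdicComplete g hg
  have hloc : IsLocalRing (AdjoinRoot g) := isLocalRing_of_isAdicComplete_maximal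
    ((maximalIdeal R).map (algebraMap R (AdjoinRoot g)))
  have hmeq : (maximalIdeal R).map (algebraMap R (AdjoinRoot g)) =
      maximalIdeal (AdjoinRoot g) := IsLocalRing.eq_maximalIdeal hmaxI
  have hfin : Module.Finite R (AdjoinRoot g) := (AdjoinRoot.powerBasis' hg).finite
  have hnoeth : IsNoetherianRing (AdjoinRoot g) := IsNoetherianRing.of_finite R _
  obtain ⟨π, hπ⟩ := IsDiscreteValuationRing.exists_irreducible R
  have hspan : maximalIdeal (AdjoinRoot g) = Ideal.span {algebraMap R (AdjoinRoot g) π} := by
    rw [← hmeq, (IsDiscreteValuationRing.irreducible_iff_uniformizer π).mp hπ, Ideal.map_span,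
      Set.image_singleton]
  have hinj : Function.Injective (algebraMap R (AdjoinRoot g)) :=
    AdjoinRoot.of.injective_of_degree_ne_zero (u784_adjoinRoot_degree_ne_zero g hg hirr)
  have hπ0 : algebraMap R (AdjoinRoot g) π ≠ 0 := by
    rw [Ne, map_eq_zero_iff _ hinj]
    exact hπ.ne_zero
  have hprinc : Submodule.IsPrincipal (maximalIdeal (AdjoinRoot g)) := ⟨⟨_, hspan⟩⟩
  have hpir : IsPrincipalIdealRing (AdjoinRoot g) :=
    ((tfae_of_isNoetherianRing_of_isLocalRing_of_isDomain (AdjoinRoot g)).out 4 0).mp hprinc
  have hdvr : IsDiscreteValuationRing (AdjoinRoot g) := by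
    refine IsDiscreteValuationRing.mk ?_
    rw [hspan, Ne, Ideal.span_singleton_eq_bot]
    exact hπ0
  -- the residue field
  have hne : g.map (residue R) ≠ 0 := (hg.map _).ne_zero
  have hFfin : Module.Finite (ResidueField R)
      ((ResidueField R)[X] ⧸ (Ideal.span {g.map (residue R)} : Ideal (ResidueField R)[X])) :=
    (AdjoinRoot.powerBasis hne).finite
  have hFfinite : Finite
      ((ResidueField R)[X] ⧸ (Ideal.span {g.map (residue R)} : Ideal (ResidueField R)[X])) :=
    Module.finite_of_finite (ResidueField R)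
  have hFcard : Nat.card
      ((ResidueField R)[X] ⧸ (Ideal.span {g.map (residue R)} : Ideal (ResidueField R)[X])) =
      Nat.card (ResidueField R) ^ g.natDegree := by
    rw [Module.natCard_eq_pow_finrank (K := ResidueField R), finrank_quotient_span_eq_natDegree,
      hg.natDegree_map]
  let e : ResidueField (AdjoinRoot g) ≃
      ((ResidueField R)[X] ⧸ (Ideal.span {g.map (residue R)} : Ideal (ResidueField R)[X])) :=
    (Ideal.quotEquivOfEq hmeq.symm).toEquiv.trans
      (AdjoinRoot.quotEquivQuotMap g (maximalIdeal R)).toEquiv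
  refine ⟨hdom, hdvr, hmeq, hmeq ▸ hcomp, Finite.of_equiv _ e.symm, ?_, ?_⟩
  · rw [Nat.card_congr e, hFcard]
  · refine ⟨fun a ha => ?_⟩
    by_contra hna
    have h1 : a ∈ maximalIdeal R := (IsLocalRing.mem_maximalIdeal a).mpr hna
    have h2 : algebraMap R (AdjoinRoot g) a ∈ maximalIdeal (AdjoinRoot g) := by
      rw [← hmeq]
      exact Ideal.mem_map_of_mem _ h1
    exact (IsLocalRing.mem_maximalIdeal _).mp h2 ha

end AdjoinRoot

end Fermat.Agent.S55.L
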