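import Fermat.Agent.S55.L.SpecInv

/-!
# S55, layer L, leaf L-A2 (helper784): comparison of rings of integers

Basic facts on complete discrete valuation subrings with finite residue field
(`IsLocalRingOfIntegers`): elements of `1 + 𝔪` are `N`-th powers for many `N`, hence have
valuation one for every other ring of integers; the ring of integers of an extension restricts
to the ring of integers of the base (given a common uniformizer).  By-product: uniqueness of the
ring of integers (`RingOfIntegersUniqueSpec`, leaf L-A0).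
-/

set_option autoImplicit false

namespace Fermat.Agent.S55.L

open IsLocalRing Polynomial

section Roots

variable {K : Type} [Field K] {A : ValuationSubring K}

/-- Hensel: in a complete local ring, an element of `1 + 𝔪` is an `N`-th power as soon as `N` is
a unit. -/
theorem u784_exists_pow_eq_of_sub_one_mem {R : Type} [CommRing R] [IsLocalRing R]
    [IsAdicComplete (maximalIdeal R) R] (u : R) (hu : u - 1 ∈ maximalIdeal R) (N : ℕ)
    (hN : IsUnit (N : R)) : ∃ w : R, w ^ N = u := by
  have hN0 : N ≠ 0 := by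
    rintro rfl
    simp at hN
  have : HenselianRing R (maximalIdeal R) := IsAdicComplete.henselianRing R _
  obtain ⟨a, ha, -⟩ := HenselianRing.is_henselian (I := maximalIdeal R) (X ^ N - C u)
    (monic_X_pow_sub_C u hN0) 1
    (by
      have : eval 1 (X ^ N - C u : R[X]) = -(u - 1) := by simp
      rw [this]
      exact neg_mem hu)
    (by
      have : eval 1 (derivative (X ^ N - C u : R[X])) = (N : R) := by
        simp [derivative_X_pow]
      rw [this]
      exact hN.map _)
  refine ⟨a, ?_⟩
  have := ha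
  simp only [IsRoot.def, eval_sub, eval_pow, eval_X, eval_C] at this
  exact sub_eq_zero.mp this

/-- The cardinality of the residue field, as an element of the ring, is in the maximal ideal. -/
theorem u784_card_residue_mem {R : Type} [CommRing R] [IsLocalRing R]
    [Finite (ResidueField R)] : ((Nat.card (ResidueField R) : ℕ) : R) ∈ maximalIdeal R := by
  have := Fintype.ofFinite (ResidueField R)
  rw [← IsLocalRing.residue_eq_zero_iff, map_natCast, Nat.card_eq_fintype_card]
  exact FiniteField.cast_card_eq_zero _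

theorem u784_two_le_card_residue {R : Type} [CommRing R] [IsLocalRing R]
    [Finite (ResidueField R)] : 2 ≤ Nat.card (ResidueField R) :=
  Finite.one_lt_card

/-- In a complete local ring with finite residue field, elements of `1 + 𝔪` are `N`-th powers for
arbitrarily large `N`. -/
theorem u784_exists_large_root {R : Type} [CommRing R] [IsLocalRing R]
    [IsAdicComplete (maximalIdeal R) R] [Finite (ResidueField R)]
    (u : R) (hu : u - 1 ∈ maximalIdeal R) (n : ℕ) : ∃ N ≥ n, ∃ w : R, w ^ N = u := by
  refine ⟨Nat.card (ResidueField R) * n + 1, ?_, ?_⟩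
  · have := u784_two_le_card_residue (R := R)
    nlinarith
  · apply u784_exists_pow_eq_of_sub_one_mem u hu
    have h1 : ((Nat.card (ResidueField R) * n + 1 : ℕ) : R) - 1 ∈ maximalIdeal R := by
      push_cast
      simpa using Ideal.mul_mem_right (n : R) _ (u784_card_residue_mem (R := R))
    by_contra hnu
    have h2 : ((Nat.card (ResidueField R) * n + 1 : ℕ) : R) ∈ maximalIdeal R :=
      (IsLocalRing.mem_maximalIdeal _).mpr hnu
    have h3 : (1 : R) ∈ maximalIdeal R := by
      have := sub_mem h2 h1
      simp at this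
    exact (Ideal.ne_top_iff_one _).mp (IsLocalRing.maximalIdeal.isMaximal R).ne_top h3

end Roots

section Val

variable {L : Type} [Field L] {B : ValuationSubring L}

theorem u784_not_valuation_lt_one_of_roots (hB : IsLocalRingOfIntegers B) (y : L) (hy : y ≠ 0)
    (hroots : ∀ n : ℕ, ∃ N ≥ n, ∃ w : L, w ^ N = y) : ¬ B.valuation y < 1 := by
  obtain ⟨hdvr, -, -⟩ := hB
  intro hlt
  have hyB : y ∈ B := (B.valuation_le_one_iff y).mp hlt.le
  have hmem : ∀ n : ℕ, (⟨y, hyB⟩ : B) ∈ (maximalIdeal B) ^ n := by
    intro n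
    obtain ⟨N, hN, w, hw⟩ := hroots n
    have hwlt : B.valuation w < 1 := by
      by_contra hcon
      rw [not_lt] at hcon
      have h1 : 1 ≤ B.valuation w ^ N := one_le_pow₀ hcon
      rw [← map_pow, hw] at h1
      exact absurd hlt (not_lt.mpr h1)
    have hwB : w ∈ B := (B.valuation_le_one_iff w).mp hwlt.le
    have hwm : (⟨w, hwB⟩ : B) ∈ maximalIdeal B := (B.valuation_lt_one_iff _).mpr hwlt
    have hyw : (⟨y, hyB⟩ : B) = ⟨w, hwB⟩ ^ N := Subtype.ext (by simp [hw])
    rw [hyw]
    exact Ideal.pow_le_pow_right hN (Ideal.pow_mem_pow hwm N)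
  have h0 : (⟨y, hyB⟩ : B) ∈ (⨅ n, (maximalIdeal B) ^ n : Ideal B) := by
    simpa [Ideal.mem_iInf] using hmem
  rw [Ideal.iInf_pow_eq_bot_of_isLocalRing _ (IsLocalRing.maximalIdeal.isMaximal _).ne_top] at h0
  have h1 : (⟨y, hyB⟩ : B) = 0 := by simpa using h0
  exact hy (congrArg Subtype.val h1)

/-- An element of `L` which has `N`-th roots for arbitrarily large `N` is a unit of every ring
of integers of `L`. -/
theorem u784_valuation_eq_one_of_roots (hB : IsLocalRingOfIntegers B) (x : L) (hx : x ≠ 0)
    (h : ∀ n : ℕ, ∃ N ≥ n, ∃ w : L, w ^ N = x) : B.valuation x = 1 := by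
  rcases lt_trichotomy (B.valuation x) 1 with hlt | heq | hgt
  · exact absurd hlt (u784_not_valuation_lt_one_of_roots hB x hx h)
  · exact heq
  · exfalso
    refine u784_not_valuation_lt_one_of_roots hB x⁻¹ (inv_ne_zero hx) ?_ ?_
    · intro n
      obtain ⟨N, hN, w, hw⟩ := h n
      exact ⟨N, hN, w⁻¹, by rw [inv_pow, hw]⟩
    · rw [map_inv₀]
      exact inv_lt_one_of_one_lt₀ hgt

end Val

section Compare

variable {K L : Type} [Field K] [Field L] [Algebra K L] {A : ValuationSubring K}
  {B : ValuationSubring L}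

theorem u784_pow_eq_one_imp {Γ : Type*} [LinearOrderedCommGroupWithZero Γ] (v : Γ) (n : ℕ)
    (hn : n ≠ 0) (h : v ^ n = 1) : v = 1 := by
  rcases lt_trichotomy v 1 with hlt | heq | hgt
  · exact absurd h (pow_lt_one₀ zero_le hlt hn).ne
  · exact heq
  · exact absurd h (one_lt_pow₀ hgt hn).ne'

/-- Units of a ring of integers of `K` are units of every ring of integers of every extension
`L` of `K`. -/
theorem u784_valuation_algebraMap_unit (hA : IsLocalRingOfIntegers A)
    (hB : IsLocalRingOfIntegers B) (u : K) (hu : A.valuation u = 1) :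
    B.valuation (algebraMap K L u) = 1 := by
  obtain ⟨hdvrA, hcA, hfA⟩ := hA
  have huA : u ∈ A := (A.valuation_le_one_iff u).mp hu.le
  have hunit : IsUnit (⟨u, huA⟩ : A) := (A.valuation_eq_one_iff _).mpr hu
  have hu0 : u ≠ 0 := by
    rintro rfl
    simp at hu
  have hQ : 2 ≤ Nat.card (ResidueField A) := u784_two_le_card_residue
  have hres : (⟨u, huA⟩ : A) ^ (Nat.card (ResidueField A) - 1) - 1 ∈ maximalIdeal A := by
    rw [← IsLocalRing.residue_eq_zero_iff, map_sub, map_pow, map_one, sub_eq_zero]
    have := Fintype.ofFinite (ResidueField A)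
    rw [Nat.card_eq_fintype_card]
    refine FiniteField.pow_card_sub_one_eq_one _ ?_
    intro h0
    rw [IsLocalRing.residue_eq_zero_iff] at h0
    exact (IsLocalRing.mem_maximalIdeal _).mp h0 hunit
  have hroots : ∀ n, ∃ N ≥ n, ∃ w : L,
      w ^ N = algebraMap K L (u ^ (Nat.card (ResidueField A) - 1)) := by
    intro n
    obtain ⟨N, hN, w, hw⟩ := u784_exists_large_root
      ((⟨u, huA⟩ : A) ^ (Nat.card (ResidueField A) - 1)) hres n
    refine ⟨N, hN, algebraMap K L (w : K), ?_⟩
    rw [← map_pow]
    congr 1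
    have := congrArg (Subtype.val) hw
    simpa using this
  have h1 := u784_valuation_eq_one_of_roots hB _
    ((map_ne_zero (algebraMap K L)).mpr (pow_ne_zero _ hu0)) hroots
  rw [map_pow, map_pow] at h1
  exact u784_pow_eq_one_imp _ _ (by omega) h1

/-- Decomposition `x = u * π ^ n` in a discrete valuation subring. -/
theorem u784_exists_unit_mul_pow (hA : IsLocalRingOfIntegers A) (π : K)
    (hπA : IsUniformizer A π) (x : K) (hx : x ∈ A) (hx0 : x ≠ 0) :
    ∃ (n : ℕ) (u : K), A.valuation u = 1 ∧ x = u * π ^ n ∧ (x ∈ A.nonunits → n ≠ 0) := by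
  obtain ⟨hdvrA, -, -⟩ := hA
  obtain ⟨hπ, hirr⟩ := hπA
  have hx0' : (⟨x, hx⟩ : A) ≠ 0 := fun h => hx0 (congrArg Subtype.val h)
  obtain ⟨n, u, hu⟩ := IsDiscreteValuationRing.eq_unit_mul_pow_irreducible hx0' hirr
  refine ⟨n, ((u : A) : K), (A.valuation_eq_one_iff _).mp u.isUnit, ?_, ?_⟩
  · have := congrArg Subtype.val hu
    simpa using this
  · intro hxn hn
    subst hn
    rw [pow_zero, mul_one] at hu
    have h1 : A.valuation x = 1 := by
      have := (A.valuation_eq_one_iff (u : A)).mp u.isUnit
      rw [← hu] at this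
      exact this
    exact (A.mem_nonunits_iff.mp hxn).ne h1

theorem u784_valuation_uniformizer_lt_one {M : Type} [Field M] {C : ValuationSubring M} (ϖ : M)
    (h : IsUniformizer C ϖ) : C.valuation ϖ < 1 := by
  obtain ⟨hπ, hirr⟩ := h
  rcases C.valuation_lt_one_or_eq_one ⟨ϖ, hπ⟩ with h1 | h1
  · exact h1
  · exact absurd ((C.valuation_eq_one_iff _).mpr h1) hirr.not_isUnit

theorem u784_uniformizer_ne_zero {M : Type} [Field M] {C : ValuationSubring M} (ϖ : M)
    (h : IsUniformizer C ϖ) : ϖ ≠ 0 := by
  obtain ⟨hπ, hirr⟩ := h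
  rintro rfl
  exact hirr.ne_zero rfl

variable (hA : IsLocalRingOfIntegers A) (hB : IsLocalRingOfIntegers B) (π : K)
  (hπA : IsUniformizer A π) (hπB : IsUniformizer B (algebraMap K L π))

include hA hB hπA hπB

theorem u784_algebraMap_mem {x : K} (hx : x ∈ A) : algebraMap K L x ∈ B := by
  rw [← B.valuation_le_one_iff]
  by_cases hx0 : x = 0
  · simp [hx0]
  obtain ⟨n, u, hu, hxu, -⟩ := u784_exists_unit_mul_pow hA π hπA x hx hx0
  rw [hxu, map_mul, map_pow, map_mul, map_pow, u784_valuation_algebraMap_unit hA hB u hu, one_mul]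
  exact pow_le_one₀ zero_le (u784_valuation_uniformizer_lt_one _ hπB).le

theorem u784_algebraMap_mem_nonunits {x : K} (hx : x ∈ A.nonunits) :
    algebraMap K L x ∈ B.nonunits := by
  rw [B.mem_nonunits_iff]
  by_cases hx0 : x = 0
  · simp [hx0]
  have hxA : x ∈ A := (A.valuation_le_one_iff x).mp (A.mem_nonunits_iff.mp hx).le
  obtain ⟨n, u, hu, hxu, hn⟩ := u784_exists_unit_mul_pow hA π hπA x hxA hx0
  rw [hxu, map_mul, map_pow, map_mul, map_pow, u784_valuation_algebraMap_unit hA hB u hu, one_mul]
  exact pow_lt_one₀ zero_le (u784_valuation_uniformizer_lt_one _ hπB) (hn hx)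

theorem u784_algebraMap_mem_iff (x : K) : algebraMap K L x ∈ B ↔ x ∈ A := by
  refine ⟨fun h => ?_, u784_algebraMap_mem hA hB π hπA hπB⟩
  by_contra hx
  have hgt : 1 < A.valuation x := by
    rw [← not_le, A.valuation_le_one_iff]
    exact hx
  have hx0 : x ≠ 0 := by
    rintro rfl
    simp at hgt
  have hinv : x⁻¹ ∈ A.nonunits := by
    rw [A.mem_nonunits_iff, map_inv₀]
    exact inv_lt_one_of_one_lt₀ hgt
  have h1 := B.mem_nonunits_iff.mp (u784_algebraMap_mem_nonunits hA hB π hπA hπB hinv)
  rw [map_inv₀, map_inv₀] at h1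
  have h2 : B.valuation (algebraMap K L x) ≤ 1 := (B.valuation_le_one_iff _).mpr h
  have h3 : B.valuation (algebraMap K L x) ≠ 0 := by
    rw [Ne, map_eq_zero, map_eq_zero]
    exact hx0
  have h4 : 1 ≤ (B.valuation (algebraMap K L x))⁻¹ := (one_le_inv₀ (zero_lt_iff.mpr h3)).mpr h2
  exact absurd h1 (not_lt.mpr h4)

theorem u784_algebraMap_mem_nonunits_iff (x : K) :
    algebraMap K L x ∈ B.nonunits ↔ x ∈ A.nonunits := by
  refine ⟨fun h => ?_, u784_algebraMap_mem_nonunits hA hB π hπA hπB⟩
  have hB1 : B.valuation (algebraMap K L x) < 1 := B.mem_nonunits_iff.mp h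
  have hxA : x ∈ A := (u784_algebraMap_mem_iff hA hB π hπA hπB x).mp
    ((B.valuation_le_one_iff _).mp hB1.le)
  rw [A.mem_nonunits_iff]
  rcases (A.valuation_lt_one_or_eq_one ⟨x, hxA⟩) with h1 | h1
  · exact h1
  · exact absurd (u784_valuation_algebraMap_unit hA hB x h1) hB1.ne

end Compare

section Unique

theorem u784_le_of_isLocalRingOfIntegers {K : Type} [Field K] (A A' : ValuationSubring K)
    (hA : IsLocalRingOfIntegers A) (hA' : IsLocalRingOfIntegers A') : A ≤ A' := by
  intro x hx
  rw [← A'.valuation_le_one_iff]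
  rcases A.valuation_lt_one_or_eq_one ⟨x, hx⟩ with h1 | h1
  · have h2 : A.valuation (1 + x) = 1 := Valuation.map_one_add_of_lt (v := A.valuation) h1
    have h3 := u784_valuation_algebraMap_unit (L := K) hA hA' (1 + x) h2
    rw [Algebra.algebraMap_self, RingHom.id_apply] at h3
    have h4 : x = (1 + x) - 1 := by ring
    rw [h4]
    refine (Valuation.map_sub _ _ _).trans ?_
    simp [h3]
  · have h3 := u784_valuation_algebraMap_unit (L := K) hA hA' x h1
    rw [Algebra.algebraMap_self, RingHom.id_apply] at h3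
    exact h3.le

/-- **L-A0** (by-product): the ring of integers of a local field is unique. -/
theorem u784_ringOfIntegersUnique : RingOfIntegersUniqueSpec := by
  intro K _ _ A A' hA hA'
  exact le_antisymm (u784_le_of_isLocalRingOfIntegers A A' hA hA')
    (u784_le_of_isLocalRingOfIntegers A' A hA' hA)

end Unique

end Fermat.Agent.S55.L
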