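import Fermat.Agent.S55.L.Unram784.Nakayama

/-!
# S55, layer L, leaf L-A2 (helper784): structure of unramified extensions, ring level

Setting: `R → S` a local homomorphism of complete discrete valuation rings with finite residue
fields `k → l`, unramified (`𝔪_R S = 𝔪_S`).  For a monic `g : R[X]` whose reduction is
irreducible of degree `[l : k]`:
* the reduction of `g` splits in `l` with distinct roots, each of which lifts uniquely to a root
  of `g` in `S` (Hensel);
* `S = R[β]` for every root `β` of `g` in `S` (complete Nakayama).
-/

set_option autoImplicit false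

namespace Fermat.Agent.S55.L

open IsLocalRing Polynomial

section Residue

variable {R S : Type} [CommRing R] [CommRing S] [IsLocalRing R] [IsLocalRing S]
  [Algebra R S] [IsLocalHom (algebraMap R S)]

theorem u784_map_map_residue (g : R[X]) :
    (g.map (algebraMap R S)).map (residue S) =
      (g.map (residue R)).map (algebraMap (ResidueField R) (ResidueField S)) := by
  rw [Polynomial.map_map, Polynomial.map_map]
  congr 1

theorem u784_residue_eval (p : S[X]) (a : S) :
    residue S (p.eval a) = (p.map (residue S)).eval (residue S a) := by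
  rw [Polynomial.eval_map, Polynomial.eval₂_at_apply]

variable [Finite (ResidueField R)] [Finite (ResidueField S)]

/-- An irreducible polynomial of degree `[l : k]` over the finite field `k` splits in `l`. -/
theorem u784_splits_of_natDegree_eq (f : (ResidueField R)[X]) (hirr : Irreducible f)
    (hdeg : f.natDegree = Module.finrank (ResidueField R) (ResidueField S)) :
    (f.map (algebraMap (ResidueField R) (ResidueField S))).Splits := by
  have hdvd := (hirr.natDegree_dvd_iff_dvd_X_pow_card_pow_sub_X
    (n := Module.finrank (ResidueField R) (ResidueField S))).mp (hdeg ▸ dvd_rfl)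
  have := Fintype.ofFinite (ResidueField S)
  have hcard : Nat.card (ResidueField R) ^ Module.finrank (ResidueField R) (ResidueField S) =
      Fintype.card (ResidueField S) := by
    rw [← Module.natCard_eq_pow_finrank, Nat.card_eq_fintype_card]
  rw [hcard] at hdvd
  have hsp := (FiniteField.isSplittingField_sub (ResidueField S) (ResidueField R)).splits
  refine Splits.of_dvd hsp ?_ (Polynomial.map_dvd _ hdvd)
  exact (Polynomial.map_ne_zero_iff
    (algebraMap (ResidueField R) (ResidueField S)).injective).mpr
    (FiniteField.X_pow_card_sub_X_ne_zero _ Fintype.one_lt_card)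

end Residue

section Hensel

variable {R S : Type} [CommRing R] [CommRing S] [IsLocalRing R] [IsLocalRing S]
  [Algebra R S] [IsLocalHom (algebraMap R S)] [IsAdicComplete (maximalIdeal S) S]

/-- Hensel: simple roots of the reduction lift to roots in `S`. -/
theorem u784_exists_lift_root (g : R[X]) (hg : g.Monic) (hsep : (g.map (residue R)).Separable)
    (r : ResidueField S)
    (hr : ((g.map (residue R)).map (algebraMap (ResidueField R) (ResidueField S))).IsRoot r) :
    ∃ a : S, (g.map (algebraMap R S)).IsRoot a ∧ residue S a = r := by
  obtain ⟨a₀, rfl⟩ := residue_surjective r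
  have hH : HenselianRing S (maximalIdeal S) := IsAdicComplete.henselianRing S _
  have hsep' : ((g.map (algebraMap R S)).map (residue S)).Separable := by
    rw [u784_map_map_residue]
    exact hsep.map
  have hm : eval a₀ (g.map (algebraMap R S)) ∈ maximalIdeal S := by
    rw [← residue_eq_zero_iff, u784_residue_eval, u784_map_map_residue]
    exact hr
  have hu : IsUnit (Ideal.Quotient.mk (maximalIdeal S)
      (eval a₀ (derivative (g.map (algebraMap R S))))) := by
    have h1 : residue S (eval a₀ (derivative (g.map (algebraMap R S)))) ≠ 0 := by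
      rw [u784_residue_eval, ← Polynomial.derivative_map]
      have h2 := hsep'.eval₂_derivative_ne_zero (RingHom.id _) (x := residue S a₀) (by
        rw [Polynomial.eval₂_id, u784_map_map_residue]
        exact hr)
      rwa [Polynomial.eval₂_id] at h2
    exact (isUnit_iff_ne_zero.mpr h1 :)
  obtain ⟨a, ha, haa⟩ := hH.is_henselian (g.map (algebraMap R S)) (hg.map _) a₀ hm hu
  refine ⟨a, ha, ?_⟩
  rw [← sub_eq_zero, ← map_sub, residue_eq_zero_iff]
  exact haa

omit [IsAdicComplete (maximalIdeal S) S] in
/-- Uniqueness of the Hensel lift. -/
theorem u784_lift_root_unique (g : R[X]) (hsep : (g.map (residue R)).Separable)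
    (a b : S) (ha : (g.map (algebraMap R S)).IsRoot a) (hb : (g.map (algebraMap R S)).IsRoot b)
    (hab : residue S a = residue S b) : a = b := by
  have hsep' : ((g.map (algebraMap R S)).map (residue S)).Separable := by
    rw [u784_map_map_residue]
    exact hsep.map
  refine IsLocalRing.eq_of_eval_eq_zero_of_not_isUnit_sub ha hb ?_ ?_
  · rw [← mem_nonunits_iff, ← mem_maximalIdeal, ← residue_eq_zero_iff, map_sub, hab, sub_self]
  · have h1 : residue S (eval a (derivative (g.map (algebraMap R S)))) ≠ 0 := by
      rw [u784_residue_eval, ← Polynomial.derivative_map]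
      have h2 := hsep'.eval₂_derivative_ne_zero (RingHom.id _) (x := residue S a) (by
        rw [Polynomial.eval₂_id, ← u784_residue_eval, ha, map_zero])
      rwa [Polynomial.eval₂_id] at h2
    by_contra hnu
    exact h1 ((residue_eq_zero_iff _).mpr ((mem_maximalIdeal _).mpr hnu))

end Hensel

section Field

/-- In an extension `l/k` of degree `deg f`, with `f` monic irreducible, every element of `l` is a
polynomial of degree `< deg f` in any root of `f`. -/
theorem u784_exists_aeval_eq {k l : Type} [Field k] [Field l] [Algebra k l]
    [FiniteDimensional k l] (f : k[X]) (hf : f.Monic) (hirr : Irreducible f)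
    (hdeg : f.natDegree = Module.finrank k l) (r₀ : l) (hr₀ : aeval r₀ f = 0) (x : l) :
    ∃ p : k[X], p.natDegree < f.natDegree ∧ aeval r₀ p = x := by
  have hmin : minpoly k r₀ = f := (minpoly.eq_of_irreducible_of_monic hirr hr₀ hf).symm
  have hint : IsIntegral k r₀ := Algebra.IsIntegral.isIntegral r₀
  have htop : IntermediateField.adjoin k {r₀} = ⊤ :=
    (Field.primitive_element_iff_minpoly_natDegree_eq k r₀).mpr (by rw [hmin, hdeg])
  have hx : x ∈ (IntermediateField.adjoin k {r₀}).toSubalgebra := by
    rw [htop]
    exact Algebra.mem_top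
  rw [IntermediateField.adjoin_simple_toSubalgebra_of_isAlgebraic hint.isAlgebraic,
    Algebra.adjoin_singleton_eq_range_aeval] at hx
  obtain ⟨p, rfl⟩ := hx
  refine ⟨p %ₘ f, Polynomial.natDegree_modByMonic_lt p hf ?_, ?_⟩
  · rintro rfl
    exact hirr.not_isUnit isUnit_one
  · exact Polynomial.aeval_modByMonic_eq_self_of_root hr₀

end Field

section Span

variable {R S : Type} [CommRing R] [CommRing S] [IsLocalRing R] [IsLocalRing S]
  [Algebra R S] [IsLocalHom (algebraMap R S)]
  [IsAdicComplete (maximalIdeal R) R] [IsAdicComplete (maximalIdeal S) S]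
  [Finite (ResidueField R)] [Finite (ResidueField S)]

omit [IsAdicComplete (maximalIdeal R) R] [IsAdicComplete (maximalIdeal S) S]
  [Finite (ResidueField R)] [Finite (ResidueField S)] in
theorem u784_aeval_residue_eq_zero (g : R[X]) (β : S)
    (hβ : (g.map (algebraMap R S)).IsRoot β) : aeval (residue S β) (g.map (residue R)) = 0 := by
  have h1 : residue S (eval β (g.map (algebraMap R S))) = 0 := by rw [hβ, map_zero]
  rw [u784_residue_eval, u784_map_map_residue] at h1
  rw [Polynomial.aeval_def, Polynomial.eval₂_eq_eval_map]
  exact h1

/-- `S = R[β]` for a root `β` of a monic polynomial whose reduction is irreducible of degree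
`[l : k]`. -/
theorem u784_span_pow (hunr : (maximalIdeal R).map (algebraMap R S) = maximalIdeal S)
    (g : R[X]) (hg : g.Monic) (hirr : Irreducible (g.map (residue R)))
    (hdeg : g.natDegree = Module.finrank (ResidueField R) (ResidueField S))
    (β : S) (hβ : (g.map (algebraMap R S)).IsRoot β) (x : S) :
    ∃ a : Fin g.natDegree → R, x = ∑ i, a i • β ^ (i : ℕ) := by
  refine u784_exists_eq_sum_smul hunr (fun i : Fin g.natDegree => β ^ (i : ℕ)) ?_ x
  intro x
  have hr₀ := u784_aeval_residue_eq_zero g β hβ
  have hdeg' : (g.map (residue R)).natDegree =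
      Module.finrank (ResidueField R) (ResidueField S) := by
    rw [hg.natDegree_map, hdeg]
  obtain ⟨p, hpdeg, hp⟩ := u784_exists_aeval_eq (g.map (residue R)) (hg.map _) hirr hdeg'
    (residue S β) hr₀ (residue S x)
  rw [hg.natDegree_map] at hpdeg
  choose c hc using fun i : ℕ => residue_surjective (p.coeff i)
  refine ⟨fun i => c i, ?_⟩
  rw [← residue_eq_zero_iff, map_sub, map_sum, sub_eq_zero, ← hp,
    Polynomial.aeval_eq_sum_range' hpdeg, ← Fin.sum_univ_eq_sum_range
      (fun i => p.coeff i • residue S β ^ i)]
  refine Finset.sum_congr rfl fun i _ => ?_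
  rw [Algebra.smul_def, Algebra.smul_def, map_mul, map_pow, ← hc,
    ResidueField.algebraMap_residue]

end Span

end Fermat.Agent.S55.L
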