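import Fermat.Agent.S55.L.Unram784.Inst

/-!
# S55, layer L, leaf L-A2 (helper784): `UnramifiedCyclicSpec` and `UnramifiedUniqueSpec`
-/

set_option autoImplicit false
set_option linter.unusedSectionVars false

namespace Fermat.Agent.S55.L

open IsLocalRing Polynomial

/-- **L-A2b**: an unramified extension of local fields is Galois and cyclic, generated by a
Frobenius element. -/
theorem u784_unramifiedCyclic : UnramifiedCyclicSpec := by
  intro K L _ _ _ _ hK hun
  obtain ⟨A, B, π, hA, hB, hπA, hπB⟩ := hun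
  have := hK.charZero
  obtain ⟨-, hgal, -, -, φ, hφ1, hφ2⟩ := u784_master hA hB π hπA hπB
  exact ⟨hgal, φ, ⟨A, B, hA, hB, hφ1⟩, hφ2⟩

/-- **L-A2c**: inside a finite extension, two unramified subextensions of the same degree
coincide. -/
theorem u784_unramifiedUnique : UnramifiedUniqueSpec := by
  intro K M _ _ _ _ hK E E' hE hE' hdeg
  obtain ⟨A, B, π, hA, hB, hπA, hπB⟩ := hE
  obtain ⟨A', B', π', hA', hB', hπA', hπB'⟩ := hE'
  have hAA : A' = A := u784_ringOfIntegersUnique K A' A hA' hA
  subst hAA
  have := hK.charZero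
  obtain ⟨hdvrA, hcA, hfA⟩ := id hA
  obtain ⟨-, -, ⟨g, hg, hirr, hgdeg⟩, hsplit, -⟩ := u784_master (L := E) hA hB π hπA hπB
  obtain ⟨-, -, -, hsplit', -⟩ := u784_master (L := E') hA hB' π' hπA' hπB'
  have hs := hsplit g hg hirr hgdeg
  have hs' := hsplit' g hg hirr (hgdeg.trans hdeg)
  have hirrK : Irreducible (g.map (algebraMap ↥A' K)) :=
    u784_irreducible_map_fraction g hg hirr
  have hmonK : (g.map (algebraMap ↥A' K)).Monic := hg.map _
  -- a root in `E'`
  have hdeg0 : ((g.map (algebraMap ↥A' K)).map (algebraMap K E')).degree ≠ 0 := by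
    rw [Polynomial.degree_map]
    exact (Polynomial.degree_pos_of_irreducible hirrK).ne'
  obtain ⟨β', hβ'⟩ := hs'.exists_eval_eq_zero hdeg0
  rw [Polynomial.eval_map, ← Polynomial.aeval_def] at hβ'
  have hβM : aeval (β' : M) (g.map (algebraMap ↥A' K)) = 0 := by
    have := congrArg (E'.val) hβ'
    rwa [← Polynomial.aeval_algHom_apply, map_zero] at this
  -- the root lies in `E`
  have hmemE : (β' : M) ∈ E := by
    have h1 : (β' : M) ∈ (g.map (algebraMap ↥A' K)).rootSet M :=
      Polynomial.mem_rootSet.mpr ⟨hmonK.ne_zero, hβM⟩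
    rw [← hs.image_rootSet E.val] at h1
    obtain ⟨e, -, he⟩ := h1
    rw [← he]
    exact e.2
  have hmin : minpoly K (β' : M) = g.map (algebraMap ↥A' K) :=
    (minpoly.eq_of_irreducible_of_monic hirrK hβM hmonK).symm
  have hint : IsIntegral K (β' : M) := Algebra.IsIntegral.isIntegral _
  have hfr : Module.finrank K (IntermediateField.adjoin K {(β' : M)}) = Module.finrank K E := by
    rw [IntermediateField.adjoin.finrank hint, hmin, hg.natDegree_map, hgdeg]
  have h1 : IntermediateField.adjoin K {(β' : M)} = E :=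
    IntermediateField.eq_of_le_of_finrank_eq
      (IntermediateField.adjoin_simple_le_iff.mpr hmemE) hfr
  have h2 : IntermediateField.adjoin K {(β' : M)} = E' :=
    IntermediateField.eq_of_le_of_finrank_eq
      (IntermediateField.adjoin_simple_le_iff.mpr β'.2) (hfr.trans hdeg)
  rw [← h1, h2]

end Fermat.Agent.S55.L
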