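import Fermat.Agent.S55.L.Unram784.Core

/-!
# S55, layer L, leaf L-A2 (helper784): structure of unramified extensions, field level

Setting (AKLB): `R ⊆ K`, `S ⊆ L` complete discrete valuation rings with finite residue fields and
their fraction fields, `R → S` local and unramified.  Then `L = K(β)` is finite Galois over `K`
of degree `[l : k]`, with cyclic Galois group generated by a Frobenius element.
-/

set_option autoImplicit false
set_option linter.unusedSectionVars false

namespace Fermat.Agent.S55.L

open IsLocalRing Polynomial

section FieldLevel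

variable {R S K L : Type} [CommRing R] [CommRing S] [IsDomain R] [IsDomain S]
  [IsDiscreteValuationRing R] [IsDiscreteValuationRing S]
  [Algebra R S] [IsLocalHom (algebraMap R S)]
  [IsAdicComplete (maximalIdeal R) R] [IsAdicComplete (maximalIdeal S) S]
  [Finite (ResidueField R)] [Finite (ResidueField S)]
  [Field K] [Field L] [Algebra R K] [IsFractionRing R K] [Algebra S L] [IsFractionRing S L]
  [Algebra K L] [Algebra R L] [IsScalarTower R K L] [IsScalarTower R S L]

omit [IsDomain R] [IsDiscreteValuationRing R] [IsDomain S] [IsDiscreteValuationRing S]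
  [IsLocalHom (algebraMap R S)] [IsAdicComplete (maximalIdeal R) R]
  [IsAdicComplete (maximalIdeal S) S] [Finite (ResidueField R)] [Finite (ResidueField S)]
  [IsFractionRing R K] [IsFractionRing S L] in
theorem u784_algebraMap_smul (a : R) (s : S) :
    algebraMap S L (a • s) = algebraMap R K a • algebraMap S L s := by
  rw [Algebra.smul_def, map_mul, ← IsScalarTower.algebraMap_apply R S L,
    IsScalarTower.algebraMap_apply R K L, Algebra.smul_def]

omit [IsLocalHom (algebraMap R S)] [IsAdicComplete (maximalIdeal R) R]
  [IsAdicComplete (maximalIdeal S) S] [Finite (ResidueField R)] [Finite (ResidueField S)]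
  [IsFractionRing R K] [IsFractionRing S L] [Algebra R L] [IsScalarTower R K L]
  [IsScalarTower R S L] [Algebra K L] [Algebra R K] [Algebra S L] in
/-- The image of a uniformizer of `R` is a uniformizer of `S`. -/
theorem u784_irreducible_algebraMap
    (hunr : (maximalIdeal R).map (algebraMap R S) = maximalIdeal S) (π : R)
    (hπ : Irreducible π) : Irreducible (algebraMap R S π) := by
  rw [IsDiscreteValuationRing.irreducible_iff_uniformizer] at hπ ⊢
  rw [← hunr, hπ, Ideal.map_span, Set.image_singleton]

/-- Every element of `L` is a `K`-linear combination of powers of `β`. -/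
theorem u784_field_span_pow (hunr : (maximalIdeal R).map (algebraMap R S) = maximalIdeal S)
    (g : R[X]) (hg : g.Monic) (hirr : Irreducible (g.map (residue R)))
    (hdeg : g.natDegree = Module.finrank (ResidueField R) (ResidueField S))
    (β : S) (hβ : (g.map (algebraMap R S)).IsRoot β) (y : L) :
    ∃ c : Fin g.natDegree → K, y = ∑ i, c i • (algebraMap S L β) ^ (i : ℕ) := by
  obtain ⟨π, hπ⟩ := IsDiscreteValuationRing.exists_irreducible R
  have hϖ := u784_irreducible_algebraMap hunr π hπ
  obtain ⟨s, t, ht, rfl⟩ := IsFractionRing.div_surjective (A := S) y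
  have ht0 : t ≠ 0 := nonZeroDivisors.ne_zero ht
  obtain ⟨m, u, hu⟩ := IsDiscreteValuationRing.eq_unit_mul_pow_irreducible ht0 hϖ
  obtain ⟨a, ha⟩ := u784_span_pow hunr g hg hirr hdeg β hβ (s * ((u⁻¹ : Sˣ) : S))
  have hπK : algebraMap R K π ≠ 0 := by
    rw [Ne, map_eq_zero_iff _ (IsFractionRing.injective R K)]
    exact hπ.ne_zero
  refine ⟨fun i => algebraMap R K (a i) / (algebraMap R K π) ^ m, ?_⟩
  have hs : algebraMap S L s = algebraMap S L (s * ((u⁻¹ : Sˣ) : S)) * algebraMap S L (u : S) := by
    rw [← map_mul, mul_assoc, Units.inv_mul, mul_one]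
  have htL : algebraMap S L t =
      algebraMap K L ((algebraMap R K π) ^ m) * algebraMap S L (u : S) := by
    rw [hu, map_mul, map_pow, map_pow, ← IsScalarTower.algebraMap_apply R S L,
      IsScalarTower.algebraMap_apply R K L, mul_comm]
  have huL : algebraMap S L (u : S) ≠ 0 := by
    rw [Ne, map_eq_zero_iff _ (IsFractionRing.injective S L)]
    exact u.ne_zero
  have hπL : algebraMap K L ((algebraMap R K π) ^ m) ≠ 0 := by
    rw [Ne, map_eq_zero]
    exact pow_ne_zero _ hπK
  rw [hs, htL, mul_div_mul_right _ _ huL, ha, map_sum, Finset.sum_div]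
  refine Finset.sum_congr rfl fun i _ => ?_
  rw [u784_algebraMap_smul (K := K), map_pow, Algebra.smul_def, Algebra.smul_def, map_div₀]
  field_simp

omit [IsLocalHom (algebraMap R S)] [IsAdicComplete (maximalIdeal R) R]
  [IsAdicComplete (maximalIdeal S) S] [Finite (ResidueField R)] [Finite (ResidueField S)]
  [IsFractionRing S L] [Algebra R L] [IsScalarTower R K L]
  [IsScalarTower R S L] [Algebra K L] [Algebra S L] [Algebra R S] [IsDomain S]
  [IsDiscreteValuationRing S] in
theorem u784_irreducible_map_fraction (g : R[X]) (hg : g.Monic)
    (hirr : Irreducible (g.map (residue R))) : Irreducible (g.map (algebraMap R K)) :=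
  (Monic.irreducible_iff_irreducible_map_fraction_map hg).mp
    (Monic.irreducible_of_irreducible_map (residue R) g hg hirr)

omit [IsDomain R] [IsDiscreteValuationRing R] [IsDomain S] [IsDiscreteValuationRing S]
  [IsLocalHom (algebraMap R S)] [IsAdicComplete (maximalIdeal R) R]
  [IsAdicComplete (maximalIdeal S) S] [Finite (ResidueField R)] [Finite (ResidueField S)]
  [IsFractionRing R K] [IsFractionRing S L] in
theorem u784_aeval_algebraMap_eq_zero (g : R[X]) (β : S)
    (hβ : (g.map (algebraMap R S)).IsRoot β) :
    aeval (algebraMap S L β) (g.map (algebraMap R K)) = 0 := by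
  rw [Polynomial.aeval_map_algebraMap, Polynomial.aeval_algebraMap_apply, Polynomial.aeval_def,
    Polynomial.eval₂_eq_eval_map, hβ, map_zero]

theorem u784_minpoly_eq (g : R[X]) (hg : g.Monic)
    (hirr : Irreducible (g.map (residue R))) (β : S)
    (hβ : (g.map (algebraMap R S)).IsRoot β) :
    minpoly K (algebraMap S L β) = g.map (algebraMap R K) :=
  (minpoly.eq_of_irreducible_of_monic (u784_irreducible_map_fraction g hg hirr)
    (u784_aeval_algebraMap_eq_zero g β hβ) (hg.map _)).symm

theorem u784_isIntegral (g : R[X]) (hg : g.Monic) (β : S)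
    (hβ : (g.map (algebraMap R S)).IsRoot β) : IsIntegral K (algebraMap S L β) :=
  ⟨g.map (algebraMap R K), hg.map _, by
    rw [← Polynomial.aeval_def]
    exact u784_aeval_algebraMap_eq_zero g β hβ⟩

theorem u784_adjoin_eq_top (hunr : (maximalIdeal R).map (algebraMap R S) = maximalIdeal S)
    (g : R[X]) (hg : g.Monic) (hirr : Irreducible (g.map (residue R)))
    (hdeg : g.natDegree = Module.finrank (ResidueField R) (ResidueField S))
    (β : S) (hβ : (g.map (algebraMap R S)).IsRoot β) :
    IntermediateField.adjoin K {algebraMap S L β} = ⊤ := by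
  rw [eq_top_iff]
  intro y _
  obtain ⟨c, rfl⟩ := u784_field_span_pow (K := K) hunr g hg hirr hdeg β hβ y
  refine sum_mem fun i _ => ?_
  rw [Algebra.smul_def]
  exact mul_mem (IntermediateField.algebraMap_mem _ _)
    (pow_mem (IntermediateField.mem_adjoin_simple_self K _) _)

theorem u784_finiteDimensional (hunr : (maximalIdeal R).map (algebraMap R S) = maximalIdeal S)
    (g : R[X]) (hg : g.Monic) (hirr : Irreducible (g.map (residue R)))
    (hdeg : g.natDegree = Module.finrank (ResidueField R) (ResidueField S))
    (β : S) (hβ : (g.map (algebraMap R S)).IsRoot β) : FiniteDimensional K L := by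
  have h1 : FiniteDimensional K (IntermediateField.adjoin K {algebraMap S L β}) :=
    IntermediateField.adjoin.finiteDimensional (u784_isIntegral (K := K) (L := L) g hg β hβ)
  rw [u784_adjoin_eq_top hunr g hg hirr hdeg β hβ] at h1
  exact Module.Finite.equiv (IntermediateField.topEquiv (F := K) (E := L)).toLinearEquiv

theorem u784_finrank_eq (hunr : (maximalIdeal R).map (algebraMap R S) = maximalIdeal S)
    (g : R[X]) (hg : g.Monic) (hirr : Irreducible (g.map (residue R)))
    (hdeg : g.natDegree = Module.finrank (ResidueField R) (ResidueField S))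
    (β : S) (hβ : (g.map (algebraMap R S)).IsRoot β) :
    Module.finrank K L = g.natDegree := by
  have h1 := IntermediateField.adjoin.finrank (K := K)
    (u784_isIntegral (K := K) (L := L) g hg β hβ)
  rw [u784_adjoin_eq_top hunr g hg hirr hdeg β hβ, u784_minpoly_eq g hg hirr β hβ,
    hg.natDegree_map] at h1
  rw [← h1, IntermediateField.finrank_top']

/-- The reduction of `g` has `deg g` distinct roots in `l`. -/
theorem u784_card_roots_residue (g : R[X]) (hg : g.Monic)
    (hirr : Irreducible (g.map (residue R)))
    (hdeg : g.natDegree = Module.finrank (ResidueField R) (ResidueField S)) :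
    ((g.map (residue R)).map (algebraMap (ResidueField R) (ResidueField S))).roots.Nodup ∧
    Multiset.card ((g.map (residue R)).map
      (algebraMap (ResidueField R) (ResidueField S))).roots = g.natDegree := by
  have hdeg' : (g.map (residue R)).natDegree =
      Module.finrank (ResidueField R) (ResidueField S) := by
    rw [hg.natDegree_map, hdeg]
  have hsp := u784_splits_of_natDegree_eq (S := S) (g.map (residue R)) hirr hdeg'
  have hsep : ((g.map (residue R)).map
      (algebraMap (ResidueField R) (ResidueField S))).Separable :=
    (PerfectField.separable_of_irreducible hirr).map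
  refine ⟨Polynomial.nodup_roots hsep, ?_⟩
  rw [splits_iff_card_roots.mp hsp, (hg.map _).natDegree_map, hg.natDegree_map]

/-- `g` splits in `L`. -/
theorem u784_splits (g : R[X]) (hg : g.Monic)
    (hirr : Irreducible (g.map (residue R)))
    (hdeg : g.natDegree = Module.finrank (ResidueField R) (ResidueField S)) :
    ((g.map (algebraMap R K)).map (algebraMap K L)).Splits := by
  classical
  have hsep : (g.map (residue R)).Separable := PerfectField.separable_of_irreducible hirr
  have hne : (g.map (residue R)).map (algebraMap (ResidueField R) (ResidueField S)) ≠ 0 :=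
    ((hg.map _).map _).ne_zero
  have hlift : ∀ r : ResidueField S, ∃ a : S,
      ((g.map (residue R)).map (algebraMap (ResidueField R) (ResidueField S))).IsRoot r →
        ((g.map (algebraMap R S)).IsRoot a ∧ residue S a = r) := by
    intro r
    by_cases hr : ((g.map (residue R)).map
        (algebraMap (ResidueField R) (ResidueField S))).IsRoot r
    · obtain ⟨a, ha⟩ := u784_exists_lift_root g hg hsep r hr
      exact ⟨a, fun _ => ha⟩
    · exact ⟨0, fun h => absurd h hr⟩
  choose lift hlift' using hlift
  have hgL : (g.map (algebraMap R K)).map (algebraMap K L) ≠ 0 := ((hg.map _).map _).ne_zero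
  have hcard : ((g.map (residue R)).map
      (algebraMap (ResidueField R) (ResidueField S))).roots.toFinset.card ≤
      ((g.map (algebraMap R K)).map (algebraMap K L)).roots.toFinset.card := by
    refine Finset.card_le_card_of_injOn (fun r => algebraMap S L (lift r)) ?_ ?_
    · intro r hr
      rw [Finset.mem_coe, Multiset.mem_toFinset, Polynomial.mem_roots hne] at hr
      rw [Finset.mem_coe, Multiset.mem_toFinset, Polynomial.mem_roots hgL, IsRoot.def,
        Polynomial.eval_map, ← Polynomial.aeval_def]
      exact u784_aeval_algebraMap_eq_zero g (lift r) (hlift' r hr).1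
    · intro r hr r' hr' heq
      rw [Finset.mem_coe, Multiset.mem_toFinset, Polynomial.mem_roots hne] at hr hr'
      have h1 : lift r = lift r' := IsFractionRing.injective S L heq
      rw [← (hlift' r hr).2, ← (hlift' r' hr').2, h1]
  rw [Multiset.toFinset_card_of_nodup (u784_card_roots_residue (S := S) g hg hirr hdeg).1,
    (u784_card_roots_residue (S := S) g hg hirr hdeg).2] at hcard
  rw [splits_iff_card_roots]
  refine le_antisymm (Polynomial.card_roots' _) ?_
  rw [(hg.map _).natDegree_map, hg.natDegree_map]
  exact hcard.trans (Multiset.toFinset_card_le _)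

/-- An unramified extension of complete discretely valued fields (char. 0, finite residue
fields) is Galois. -/
theorem u784_isGalois [CharZero K]
    (hunr : (maximalIdeal R).map (algebraMap R S) = maximalIdeal S)
    (g : R[X]) (hg : g.Monic) (hirr : Irreducible (g.map (residue R)))
    (hdeg : g.natDegree = Module.finrank (ResidueField R) (ResidueField S))
    (β : S) (hβ : (g.map (algebraMap R S)).IsRoot β) : IsGalois K L := by
  have hirrK := u784_irreducible_map_fraction (K := K) g hg hirr
  have hsplit : IsSplittingField K L (g.map (algebraMap R K)) := by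
    refine ⟨u784_splits g hg hirr hdeg, ?_⟩
    have h1 := u784_adjoin_eq_top (K := K) (L := L) hunr g hg hirr hdeg β hβ
    have h2 := congrArg IntermediateField.toSubalgebra h1
    rw [IntermediateField.adjoin_simple_toSubalgebra_of_isAlgebraic
      (u784_isIntegral (K := K) (L := L) g hg β hβ).isAlgebraic,
      IntermediateField.top_toSubalgebra] at h2
    rw [eq_top_iff, ← h2]
    refine Algebra.adjoin_mono ?_
    rw [Set.singleton_subset_iff, Polynomial.mem_rootSet]
    exact ⟨(hg.map _).ne_zero, u784_aeval_algebraMap_eq_zero g β hβ⟩
  exact IsGalois.of_separable_splitting_field (p := g.map (algebraMap R K)) hirrK.separable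

end FieldLevel

end Fermat.Agent.S55.L
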