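import Fermat.Agent.S55.L.Unram784.FieldLevel

/-!
# S55, layer L, leaf L-A2 (helper784): the Frobenius element of an unramified extension

Same AKLB setting as in `FieldLevel`.  We construct `φ ∈ Gal(L/K)` with `φ x ≡ x ^ |k|` modulo
`𝔪_S` for all `x ∈ S` and show that it generates `Gal(L/K)`.
-/

set_option autoImplicit false
set_option linter.unusedSectionVars false

namespace Fermat.Agent.S55.L

open IsLocalRing Polynomial

section Frobenius

variable {R S K L : Type} [CommRing R] [CommRing S] [IsDomain R] [IsDomain S]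
  [IsDiscreteValuationRing R] [IsDiscreteValuationRing S]
  [Algebra R S] [IsLocalHom (algebraMap R S)]
  [IsAdicComplete (maximalIdeal R) R] [IsAdicComplete (maximalIdeal S) S]
  [Finite (ResidueField R)] [Finite (ResidueField S)]
  [Field K] [Field L] [Algebra R K] [IsFractionRing R K] [Algebra S L] [IsFractionRing S L]
  [Algebra K L] [Algebra R L] [IsScalarTower R K L] [IsScalarTower R S L]

/-- `σ ∈ Gal(L/K)` preserves `S` and induces `τ` on the residue field. -/
def u784_Induces (σ : L ≃ₐ[K] L)
    (τ : ResidueField S ≃ₐ[ResidueField R] ResidueField S) : Prop :=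
  ∀ x : S, ∃ y : S, algebraMap S L y = σ (algebraMap S L x) ∧ residue S y = τ (residue S x)

theorem u784_induces_one :
    u784_Induces (1 : L ≃ₐ[K] L) (1 : ResidueField S ≃ₐ[ResidueField R] ResidueField S) :=
  fun x => ⟨x, rfl, rfl⟩

theorem u784_induces_mul {σ σ' : L ≃ₐ[K] L}
    {τ τ' : ResidueField S ≃ₐ[ResidueField R] ResidueField S}
    (h : u784_Induces σ τ) (h' : u784_Induces σ' τ') : u784_Induces (σ * σ') (τ * τ') := by
  intro x
  obtain ⟨y, hy1, hy2⟩ := h' x
  obtain ⟨z, hz1, hz2⟩ := h y
  exact ⟨z, by rw [hz1, hy1]; rfl, by rw [hz2, hy2]; rfl⟩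

theorem u784_induces_pow {σ : L ≃ₐ[K] L}
    {τ : ResidueField S ≃ₐ[ResidueField R] ResidueField S}
    (h : u784_Induces σ τ) (n : ℕ) : u784_Induces (σ ^ n) (τ ^ n) := by
  induction n with
  | zero => simpa using u784_induces_one (R := R) (S := S) (K := K) (L := L)
  | succ n ih =>
    rw [pow_succ, pow_succ]
    exact u784_induces_mul ih h

theorem u784_residue_sum_smul_pow {n : ℕ} (a : Fin n → R) (γ : S) :
    residue S (∑ i, a i • γ ^ (i : ℕ)) =
      ∑ i, algebraMap (ResidueField R) (ResidueField S) (residue R (a i)) *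
        residue S γ ^ (i : ℕ) := by
  rw [map_sum]
  refine Finset.sum_congr rfl fun i _ => ?_
  rw [Algebra.smul_def, map_mul, map_pow, ResidueField.algebraMap_residue]

/-- If `σ β = β'` and `β' ≡ τ β̄`, then `σ` induces `τ`. -/
theorem u784_induces_of_root
    (hunr : (maximalIdeal R).map (algebraMap R S) = maximalIdeal S)
    (g : R[X]) (hg : g.Monic) (hirr : Irreducible (g.map (residue R)))
    (hdeg : g.natDegree = Module.finrank (ResidueField R) (ResidueField S))
    (β : S) (hβ : (g.map (algebraMap R S)).IsRoot β)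
    (σ : L ≃ₐ[K] L) (τ : ResidueField S ≃ₐ[ResidueField R] ResidueField S) (β' : S)
    (hσ : σ (algebraMap S L β) = algebraMap S L β')
    (hτ : residue S β' = τ (residue S β)) : u784_Induces σ τ := by
  intro x
  obtain ⟨a, rfl⟩ := u784_span_pow hunr g hg hirr hdeg β hβ x
  refine ⟨∑ i, a i • β' ^ (i : ℕ), ?_, ?_⟩
  · rw [map_sum, map_sum, map_sum]
    refine Finset.sum_congr rfl fun i _ => ?_
    rw [u784_algebraMap_smul (K := K), u784_algebraMap_smul (K := K), map_smul, map_pow,
      map_pow, map_pow, hσ]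
  · rw [u784_residue_sum_smul_pow, u784_residue_sum_smul_pow, map_sum]
    refine Finset.sum_congr rfl fun i _ => ?_
    rw [map_mul, AlgEquiv.commutes, map_pow, hτ]

/-- Two `k`-automorphisms of `l` agreeing on a root of `ḡ` agree. -/
theorem u784_algEquiv_ext_of_root (g : R[X]) (hg : g.Monic)
    (hirr : Irreducible (g.map (residue R)))
    (hdeg : g.natDegree = Module.finrank (ResidueField R) (ResidueField S))
    (β : S) (hβ : (g.map (algebraMap R S)).IsRoot β)
    (τ τ' : ResidueField S ≃ₐ[ResidueField R] ResidueField S)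
    (h : τ (residue S β) = τ' (residue S β)) : τ = τ' := by
  have hdeg' : (g.map (residue R)).natDegree =
      Module.finrank (ResidueField R) (ResidueField S) := by
    rw [hg.natDegree_map, hdeg]
  ext x
  obtain ⟨p, -, rfl⟩ := u784_exists_aeval_eq (g.map (residue R)) (hg.map _) hirr hdeg'
    (residue S β) (u784_aeval_residue_eq_zero g β hβ) x
  rw [← Polynomial.aeval_algHom_apply, ← Polynomial.aeval_algHom_apply, h]

/-- **Frobenius.**  In an unramified extension there is `φ ∈ Gal(L/K)` with
`φ x ≡ x ^ |k| mod 𝔪_S` on `S`, and `φ` generates `Gal(L/K)`. -/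
theorem u784_exists_frobenius [CharZero K]
    (hunr : (maximalIdeal R).map (algebraMap R S) = maximalIdeal S)
    (g : R[X]) (hg : g.Monic) (hirr : Irreducible (g.map (residue R)))
    (hdeg : g.natDegree = Module.finrank (ResidueField R) (ResidueField S))
    (β : S) (hβ : (g.map (algebraMap R S)).IsRoot β) :
    ∃ φ : L ≃ₐ[K] L,
      (∀ x : S, ∃ y : S, algebraMap S L y = φ (algebraMap S L x) ∧
        y - x ^ Nat.card (ResidueField R) ∈ maximalIdeal S) ∧
      ∀ σ : L ≃ₐ[K] L, σ ∈ Subgroup.zpowers φ := by
  classical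
  have hfd : FiniteDimensional K L := u784_finiteDimensional hunr g hg hirr hdeg β hβ
  have hgal : IsGalois K L := u784_isGalois hunr g hg hirr hdeg β hβ
  letI := Fintype.ofFinite (ResidueField R)
  let Frob : ResidueField S ≃ₐ[ResidueField R] ResidueField S :=
    FiniteField.frobeniusAlgEquivOfAlgebraic (ResidueField R) (ResidueField S)
  have hFrob : ∀ x, Frob x = x ^ Nat.card (ResidueField R) := fun x => by
    rw [Nat.card_eq_fintype_card]
    exact FiniteField.frobeniusAlgEquivOfAlgebraic_apply _ _ x
  have hsep : (g.map (residue R)).Separable := PerfectField.separable_of_irreducible hirr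
  -- the root `β₁` lifting `Frob β̄`
  have hr₁ : ((g.map (residue R)).map
      (algebraMap (ResidueField R) (ResidueField S))).IsRoot (Frob (residue S β)) := by
    rw [IsRoot.def, Polynomial.eval_map, ← Polynomial.aeval_def, Polynomial.aeval_algHom_apply,
      u784_aeval_residue_eq_zero g β hβ, map_zero]
  obtain ⟨β₁, hβ₁, hres₁⟩ := u784_exists_lift_root g hg hsep _ hr₁
  -- the automorphism
  obtain ⟨φ, hφ⟩ := minpoly.exists_algEquiv_of_root' (K := K) (L := L)
    (x := algebraMap S L β₁) (y := algebraMap S L β)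
    (u784_isIntegral (K := K) (L := L) g hg β hβ).isAlgebraic (by
      rw [u784_minpoly_eq g hg hirr β hβ]
      exact u784_aeval_algebraMap_eq_zero g β₁ hβ₁)
  have hind : u784_Induces φ Frob :=
    u784_induces_of_root hunr g hg hirr hdeg β hβ φ Frob β₁ hφ hres₁
  refine ⟨φ, ?_, ?_⟩
  · intro x
    obtain ⟨y, hy1, hy2⟩ := hind x
    refine ⟨y, hy1, ?_⟩
    rw [← residue_eq_zero_iff, map_sub, map_pow, hy2, hFrob, sub_self]
  · -- generation: the powers `φ ^ i`, `i < n`, are pairwise distinct
    have hinj : ∀ i j : ℕ, i < g.natDegree → j < g.natDegree → φ ^ i = φ ^ j → i = j := by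
      intro i j hi hj hij
      obtain ⟨y, hy1, hy2⟩ := u784_induces_pow hind i β
      obtain ⟨y', hy1', hy2'⟩ := u784_induces_pow hind j β
      have hyy : y = y' := IsFractionRing.injective S L (by rw [hy1, hy1', hij])
      have hF : Frob ^ i = Frob ^ j :=
        u784_algEquiv_ext_of_root g hg hirr hdeg β hβ _ _ (by rw [← hy2, ← hy2', hyy])
      have hb := (FiniteField.bijective_frobeniusAlgEquivOfAlgebraic_pow (ResidueField R)
        (ResidueField S)).1
      have := @hb ⟨i, hdeg ▸ hi⟩ ⟨j, hdeg ▸ hj⟩ hF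
      exact congrArg Fin.val this
    have hcard : Nat.card (L ≃ₐ[K] L) = g.natDegree := by
      rw [IsGalois.card_aut_eq_finrank, u784_finrank_eq hunr g hg hirr hdeg β hβ]
    have hord : g.natDegree ≤ orderOf φ := by
      by_contra hlt
      rw [not_le] at hlt
      have h0 : 0 < orderOf φ := orderOf_pos φ
      have h1 : φ ^ orderOf φ = φ ^ 0 := by rw [pow_orderOf_eq_one, pow_zero]
      have := hinj (orderOf φ) 0 hlt (h0.trans hlt) h1
      omega
    have htop : Subgroup.zpowers φ = ⊤ := by
      apply Subgroup.eq_top_of_le_card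
      rw [Nat.card_zpowers, hcard]
      exact hord
    intro σ
    rw [htop]
    exact Subgroup.mem_top σ

end Frobenius

end Fermat.Agent.S55.L
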