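import Mathlib

/-!
# S55, layer L, leaf L-A2 (helper784): complete Nakayama for unramified extensions

* `u784_isPrecomplete_pi`: a finite power of a precomplete ring is precomplete;
* `u784_exists_eq_sum_smul`: if `R → S` is a local homomorphism with `𝔪_R S = 𝔪_S`, `R` is
  precomplete, `S` is Hausdorff and the `b i` span `S` modulo `𝔪_S`, then the `b i` span `S`.
-/

set_option autoImplicit false

namespace Fermat.Agent.S55.L

open IsLocalRing

section Pi

variable {R : Type*} [CommRing R] (I : Ideal R) {ι : Type*}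

theorem u784_mem_smul_top_pi_imp (n : ℕ) (x : ι → R)
    (hx : x ∈ (I ^ n • ⊤ : Submodule R (ι → R))) (i : ι) : x i ∈ I ^ n := by
  refine Submodule.smul_induction_on (p := fun y : ι → R => y i ∈ I ^ n) hx ?_ ?_
  · intro r hr m _
    exact Ideal.mul_mem_right _ _ hr
  · intro x y hx hy
    exact Ideal.add_mem _ hx hy

theorem u784_mem_smul_top_pi_of [Fintype ι] [DecidableEq ι] (n : ℕ) (x : ι → R)
    (hx : ∀ i, x i ∈ I ^ n) : x ∈ (I ^ n • ⊤ : Submodule R (ι → R)) := by
  have hsum : x = ∑ i, x i • (Pi.single i (1 : R) : ι → R) := by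
    funext j
    simp [Finset.sum_apply, Pi.single_apply]
  rw [hsum]
  exact Submodule.sum_mem _ fun i _ => Submodule.smul_mem_smul (hx i) Submodule.mem_top

theorem u784_isPrecomplete_pi [IsPrecomplete I R] [Finite ι] : IsPrecomplete I (ι → R) := by
  classical
  have := Fintype.ofFinite ι
  refine ⟨fun f hf => ?_⟩
  have hcoord : ∀ i, ∃ L : R, ∀ n, f n i ≡ L [SMOD (I ^ n • ⊤ : Submodule R R)] := by
    intro i
    apply IsPrecomplete.prec ‹IsPrecomplete I R›
    intro m n hmn
    have h1 := hf hmn
    rw [SModEq.sub_mem] at h1 ⊢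
    have h2 := u784_mem_smul_top_pi_imp I m _ h1 i
    simpa using h2
  choose L hL using hcoord
  refine ⟨L, fun n => ?_⟩
  rw [SModEq.sub_mem]
  apply u784_mem_smul_top_pi_of
  intro i
  have h1 := hL i n
  rw [SModEq.sub_mem] at h1
  simpa using h1

end Pi

section Nakayama

variable {R S : Type*} [CommRing R] [CommRing S] [Algebra R S] [IsLocalRing R] [IsLocalRing S]

/-- Complete Nakayama: generators modulo the maximal ideal are generators. -/
theorem u784_exists_eq_sum_smul [IsPrecomplete (maximalIdeal R) R]
    [IsHausdorff (maximalIdeal S) S]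
    (hunr : (maximalIdeal R).map (algebraMap R S) = maximalIdeal S)
    {ι : Type*} [Fintype ι] (b : ι → S)
    (hb : ∀ x : S, ∃ a : ι → R, x - ∑ i, a i • b i ∈ maximalIdeal S) (x : S) :
    ∃ a : ι → R, x = ∑ i, a i • b i := by
  classical
  have : IsPrecomplete (maximalIdeal R) (ι → R) := u784_isPrecomplete_pi _
  have : IsHausdorff (maximalIdeal R) S := by
    have h : IsHausdorff ((maximalIdeal R).map (algebraMap R S)) S := by
      rw [hunr]; infer_instance
    exact IsHausdorff.map_algebraMap_iff.mp h
  let f : (ι → R) →ₗ[R] S := Fintype.linearCombination R b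
  have hf : ∀ a : ι → R, f a = ∑ i, a i • b i := fun a => by
    simp [f, Fintype.linearCombination_apply]
  have hsurj : Function.Surjective f := by
    apply surjective_of_mkQ_comp_surjective (I := maximalIdeal R)
    intro y
    obtain ⟨x, rfl⟩ := Submodule.mkQ_surjective _ y
    obtain ⟨a, ha⟩ := hb x
    refine ⟨a, ?_⟩
    rw [LinearMap.comp_apply, Submodule.mkQ_apply, Submodule.mkQ_apply,
      Submodule.Quotient.eq, hf]
    have hmem : (∑ i, a i • b i) - x ∈ maximalIdeal S := by
      have := neg_mem ha
      simpa using this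
    have htop : ((maximalIdeal R) • ⊤ : Submodule R S) =
        ((maximalIdeal R).map (algebraMap R S)).restrictScalars R := by
      rw [Ideal.smul_top_eq_map]
    rw [htop, hunr]
    exact hmem
  obtain ⟨a, ha⟩ := hsurj x
  exact ⟨a, by rw [← ha, hf]⟩

end Nakayama

end Fermat.Agent.S55.L
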